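/-
S55 G-ARITH, sub-block WILD: for a totally ramified place `v` (`e = p`) of a cyclic extension `M'/M` of
degree `p` there is an element of `Mˣ` which is not a local norm at `v`.  (Needed for `v ∣ p`.)

Elementary version of "the Herbrand quotient of the local units is 1", entirely inside the number
fields (no completion, no henselisation).

NOTATION.  `G = ⟨σ⟩`, `w` the place above `v`, `θ` a normal basis element, integral at `w`,
`Λ = O_(v)[G] θ`,   `Lam n = π^n Λ = { ∑_{i<p} c_i σ^i θ : ord_v c_i ≥ n }`,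
`c₁` : `π^(n + c₁) O'_(w) ⊆ Lam n`,  `T₀ = Tr θ ≠ 0`,  `n₀ = max (ord_v T₀) c₁ + 1`,
`VG k = 1 + Lam (n₀ + k)`  (a `G`-stable subgroup of finite index of the units at `w`).

PLAN.
 (Step)      `z ∈ VG k`, `N z = 1`  ⟹ `∃ y ∈ VG k, z * y / σ y ∈ VG (k+1)`.
 (Resolvent) `z ∈ VG (k + ord_v p)`, `N z = 1` ⟹ `∃ y ∈ VG k, σ y / y = z`.
 (H1)        `z ∈ VG k`, `N z = 1` ⟹ `∃ y ∈ VG k, σ y / y = z`.
 (Herbrand)  finite abelian group `Q` with endomorphisms `D, N`, `ND = DN = 1`: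
             `im D ≠ ker N ⟹ im N ≠ ker D`.
 (Main)      `η = σ Π / Π` (`ord_w Π = 1`) is in `ker N`, not in `im D` on `Q = U_w / VG 0` (by H1 and
             `p ∣ ord_w (Mˣ)`); so there is `a ∈ U_w`, `σ a / a ∈ VG 0`, `a ∉ N(U_w) VG 0`; by H1
             `a = u y`, `u ∈ Mˣ`, `y ∈ VG 0`; then `u ∉ NL v`.
-/
import Fermat.Agent.PT.Arith.NL

set_option autoImplicit false
set_option linter.unusedSectionVars false

namespace Fermat.Agent.PT.Arith

open Fermat.Agent.CFT IsDedekindDomain NumberField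

variable {M : Type*} [Field M] [NumberField M] {M' : Type*} [Field M'] [NumberField M']
  [Algebra M M']

theorem ord_neg' (v : Pl M) (x : M) : ord v (-x) = ord v x := by
  unfold ord
  rw [Valuation.map_neg]

/-- `Lam p σ θ v n = { ∑_{i<p} c_i σ^i θ : c_i = 0 ∨ n ≤ ord_v c_i }`. -/
def Lam (p : ℕ) (σ : M' ≃ₐ[M] M') (θ : M') (v : Pl M) (n : ℤ) : AddSubgroup M' where
  carrier := {x | ∃ c : ℕ → M, (∀ i, c i = 0 ∨ n ≤ ord v (c i)) ∧
      x = ∑ i ∈ Finset.range p, algebraMap M M' (c i) * (σ ^ i) θ}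
  add_mem' := by
    rintro _ _ ⟨c, hc, rfl⟩ ⟨c', hc', rfl⟩
    refine ⟨fun i => c i + c' i, fun i => le_ord_add v (hc i) (hc' i), ?_⟩
    rw [← Finset.sum_add_distrib]
    refine Finset.sum_congr rfl fun i _ => ?_
    rw [map_add, add_mul]
  zero_mem' := ⟨fun _ => 0, fun _ => Or.inl rfl, by simp⟩
  neg_mem' := by
    rintro _ ⟨c, hc, rfl⟩
    refine ⟨fun i => - c i, fun i => ?_, ?_⟩
    · rcases hc i with h | h
      · exact Or.inl (by simp [h])
      · exact Or.inr (by rw [ord_neg']; exact h)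
    · rw [← Finset.sum_neg_distrib]
      refine Finset.sum_congr rfl fun i _ => ?_
      rw [map_neg, neg_mul]

theorem mem_Lam_iff (p : ℕ) (σ : M' ≃ₐ[M] M') (θ : M') (v : Pl M) (n : ℤ) (x : M') :
    x ∈ Lam p σ θ v n ↔ ∃ c : ℕ → M, (∀ i, c i = 0 ∨ n ≤ ord v (c i)) ∧
      x = ∑ i ∈ Finset.range p, algebraMap M M' (c i) * (σ ^ i) θ := Iff.rfl

/-- All the data used in the wild computation. -/
structure WildData (p : ℕ) (M : Type*) [Field M] [NumberField M] (M' : Type*) [Field M']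
    [NumberField M'] [Algebra M M'] where
  σ : M' ≃ₐ[M] M'
  v : Pl M
  w : Pl M'
  θ : M'
  T₀ : M
  c₁ : ℤ
  fix : σ • w = w
  fixed : ∀ x : M', σ x = x → ∃ a : M, algebraMap M M' a = x
  norm_eq : ∀ x : M', algebraMap M M' (Algebra.norm M x) = ∏ i ∈ Finset.range p, (σ ^ i) x
  pow_eq : σ ^ p = 1
  ord_map : ∀ x : M, ord w (algebraMap M M' x) = p * ord v x
  θ_int : 0 ≤ ord w θ
  θ_ne : θ ≠ 0
  T₀_ne : T₀ ≠ 0
  T₀_eq : algebraMap M M' T₀ = ∑ i ∈ Finset.range p, (σ ^ i) θ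
  c₁_nonneg : 0 ≤ c₁
  absorb : ∀ (n : ℤ) (x : M'), (x = 0 ∨ (p : ℤ) * (n + c₁) ≤ ord w x) → x ∈ Lam p σ θ v n

namespace WildData

variable {p : ℕ} (D : WildData p M M')

/-- `π^n Λ`. -/
abbrev L (n : ℤ) : AddSubgroup M' := Lam p D.σ D.θ D.v n

/-- the first good level. -/
noncomputable def n₀ : ℤ := max (ord D.v D.T₀) D.c₁ + 1

theorem c₁_lt_n₀ : D.c₁ < D.n₀ := by
  unfold n₀
  have := le_max_right (ord D.v D.T₀) D.c₁
  omega

theorem ordT₀_lt_n₀ : ord D.v D.T₀ < D.n₀ := by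
  unfold n₀
  have := le_max_left (ord D.v D.T₀) D.c₁
  omega

theorem n₀_pos : 0 < D.n₀ := lt_of_le_of_lt D.c₁_nonneg D.c₁_lt_n₀

/-- the action of `σ` on units. -/
noncomputable def sU : M'ˣ →* M'ˣ := Units.map (D.σ : M' →* M')

/-- the norm as an endomorphism of `M'ˣ`. -/
noncomputable def nU (_D : WildData p M M') : M'ˣ →* M'ˣ :=
  (Units.map (algebraMap M M' : M →* M')).comp (Units.map (Algebra.norm M : M' →* M))

end WildData

end Fermat.Agent.PT.Arith
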