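/-
S55 G-ARITH / WILD, leaf `Exists`: construction of `WildData` at a totally ramified place.
-/
import Fermat.Agent.PT.Arith.Wild.Defs

set_option autoImplicit false
set_option linter.unusedSectionVars false

namespace Fermat.Agent.PT.Arith

open Fermat.Agent.CFT IsDedekindDomain NumberField

variable {M : Type*} [Field M] [NumberField M] {M' : Type*} [Field M'] [NumberField M']
  [Algebra M M']

namespace WildExists

theorem le_ord_sum {N : Type*} [Field N] [NumberField N] {ι : Type*} (v : Pl N) (s : Finset ι)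
    (f : ι → N) (n : ℤ) (h : ∀ i ∈ s, f i = 0 ∨ n ≤ ord v (f i)) :
    ∑ i ∈ s, f i = 0 ∨ n ≤ ord v (∑ i ∈ s, f i) := by
  classical
  induction s using Finset.induction_on with
  | empty => left; simp
  | insert i s hi ih =>
    rw [Finset.sum_insert hi]
    exact le_ord_add v (h i (Finset.mem_insert_self i s))
      (ih fun j hj => h j (Finset.mem_insert_of_mem hj))

/-- Sums over a finite cyclic group. -/
theorem sum_eq_sum_range {G : Type*} [Group G] [Fintype G] {σ : G}
    (hσ : ∀ τ : G, τ ∈ Subgroup.zpowers σ) {A : Type*} [AddCommMonoid A] (f : G → A) :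
    ∑ τ, f τ = ∑ i ∈ Finset.range (orderOf σ), f (σ ^ i) := by
  classical
  rw [← IsCyclic.image_range_orderOf hσ, Finset.sum_image]
  intro i hi j hj hij
  exact pow_injOn_Iio_orderOf (by simpa using hi) (by simpa using hj) hij

/-- Products over a finite cyclic group. -/
theorem prod_eq_prod_range {G : Type*} [Group G] [Fintype G] {σ : G}
    (hσ : ∀ τ : G, τ ∈ Subgroup.zpowers σ) {A : Type*} [CommMonoid A] (f : G → A) :
    ∏ τ, f τ = ∏ i ∈ Finset.range (orderOf σ), f (σ ^ i) := by
  classical
  rw [← IsCyclic.image_range_orderOf hσ, Finset.prod_image]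
  intro i hi j hj hij
  exact pow_injOn_Iio_orderOf (by simpa using hi) (by simpa using hj) hij

/-- The trace does not decrease the valuation at a place fixed by the Galois group. -/
theorem le_ord_trace [IsGalois M M'] {e : ℕ} {v : Pl M} {w : Pl M'}
    (hfix : ∀ τ : M' ≃ₐ[M] M', τ • w = w)
    (hord : ∀ x : M, ord w (algebraMap M M' x) = e * ord v x) (y : M') :
    Algebra.trace M M' y = 0 ∨ ord w y ≤ e * ord v (Algebra.trace M M' y) := by
  by_cases h0 : Algebra.trace M M' y = 0
  · exact Or.inl h0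
  right
  rw [← hord, trace_eq_sum_automorphisms]
  have h1 := le_ord_sum w Finset.univ (fun τ : M' ≃ₐ[M] M' => τ y) (ord w y) (fun τ _ => by
    right
    have := ord_smul_smul τ w y
    rw [hfix τ] at this
    exact this.ge)
  rcases h1 with h1 | h1
  · exfalso
    apply h0
    have : algebraMap M M' (Algebra.trace M M' y) = 0 := by
      rw [trace_eq_sum_automorphisms]; exact h1
    exact (map_eq_zero _).mp this
  · exact h1

end WildExists

open WildExists in
/-- `σ` = a generator of the Galois group (cyclic of order `p`), `w` above `v` (fixed by everything,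
`smul_eq_of_not_split`), `ord_map` from `ord_algebraMap` and `e = p`.
`θ`: `IsGalois.normalBasis M M' 1` multiplied by a nonzero element of `M` to make it integral at `w`
(or `θ = ∑_{j<p} θ₀^j` for a Kummer generator `θ₀`).  `T₀ = Tr θ ≠ 0` by linear independence.
`absorb`: the coordinates of `x` in the basis `σ^i θ` are `c_i(x) = Tr (x θ_i^*)` for the dual basis
`θ_i^*` w.r.t. the trace form, and `p ord_v (Tr y) = ord_w (∑ σ^j y) ≥ ord_w y`; so
`c₁ = max_i ⌈- ord_w θ_i^* / p⌉ + 1` (anything large) works. -/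
theorem exists_wildData (p : ℕ) [Fact p.Prime] [IsGalois M M'] (hdeg : Module.finrank M M' = p)
    {v : Pl M} {w : Pl M'} (hw : Above w v) (hns : ¬ Split M' v)
    (he : Ideal.ramificationIdx' v.asIdeal w.asIdeal = p) :
    ∃ D : WildData p M M', D.v = v := by
  classical
  have hp : p.Prime := Fact.out
  have hp1 : (1 : ℤ) ≤ p := by exact_mod_cast hp.one_lt.le
  have hcard : Nat.card (M' ≃ₐ[M] M') = p := by rw [IsGalois.card_aut_eq_finrank, hdeg]
  have hcyc : IsCyclic (M' ≃ₐ[M] M') := isCyclic_of_prime_card hcard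
  obtain ⟨σ, hσ⟩ := hcyc.exists_generator
  have hord : orderOf σ = p := by rw [orderOf_eq_card_of_forall_mem_zpowers hσ, hcard]
  have hfix : ∀ τ : M' ≃ₐ[M] M', τ • w = w := smul_eq_of_not_split hp hdeg hw hns
  have hom : ∀ x : M, ord w (algebraMap M M' x) = p * ord v x := by
    intro x
    rw [ord_algebraMap hw, he]
  -- the normal basis element, made integral
  set θ₀ : M' := IsGalois.normalBasis M M' 1 with hθ₀
  have hθ₀ne : θ₀ ≠ 0 := (IsGalois.normalBasis M M').ne_zero 1
  obtain ⟨π, hπ⟩ := exists_uniformizer v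
  have hπ0 : (π : M) ≠ 0 := by
    intro h
    rw [h] at hπ
    simp [ord] at hπ
  set k : ℕ := (- ord w θ₀).toNat with hk
  set a : M := (π : M) ^ k with ha
  have ha0 : a ≠ 0 := pow_ne_zero _ hπ0
  set θ : M' := algebraMap M M' a * θ₀ with hθ
  have ha0' : algebraMap M M' a ≠ 0 := (map_ne_zero _).mpr ha0
  have hθne : θ ≠ 0 := mul_ne_zero ha0' hθ₀ne
  have hθint : 0 ≤ ord w θ := by
    rw [hθ, ord_mul w ha0' hθ₀ne, hom, ha, ord_pow, hπ, mul_one]
    have h1 : - ord w θ₀ ≤ k := Int.self_le_toNat _
    have h2 : (0 : ℤ) ≤ k := Int.natCast_nonneg k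
    nlinarith
  -- the basis `τ θ`
  set B : Module.Basis (M' ≃ₐ[M] M') M M' :=
    (IsGalois.normalBasis M M').unitsSMul (fun _ => Units.mk0 a ha0) with hB
  have hBapp : ∀ τ : M' ≃ₐ[M] M', B τ = τ θ := by
    intro τ
    rw [hB, Module.Basis.unitsSMul_apply, IsGalois.normalBasis_apply, hθ, map_mul,
      AlgEquiv.commutes, Units.smul_mk0, Algebra.smul_def]
  set Bd := B.traceDual with hBd
  have hBdne : ∀ τ, Bd τ ≠ 0 := fun τ => Bd.ne_zero τ
  have hrepr : ∀ (x : M') (τ : M' ≃ₐ[M] M'), B.repr x τ = Algebra.trace M M' (x * Bd τ) := by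
    intro x τ
    have := Module.Basis.traceDual_repr_apply Bd x τ
    rw [hBd, Module.Basis.traceDual_traceDual] at this
    rw [this, Algebra.traceForm_apply]
  -- the constant
  set c₁ : ℤ := ∑ τ : M' ≃ₐ[M] M', |ord w (Bd τ)| with hc₁
  have hc₁0 : 0 ≤ c₁ := Finset.sum_nonneg fun τ _ => abs_nonneg _
  have hc₁le : ∀ τ, - ord w (Bd τ) ≤ c₁ := by
    intro τ
    have h1 : |ord w (Bd τ)| ≤ c₁ :=
      Finset.single_le_sum (f := fun τ => |ord w (Bd τ)|) (fun τ _ => abs_nonneg _)
        (Finset.mem_univ τ)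
    exact (neg_le_abs _).trans h1
  refine ⟨{ σ := σ, v := v, w := w, θ := θ, T₀ := Algebra.trace M M' θ, c₁ := c₁,
            fix := hfix σ, fixed := ?_, norm_eq := ?_, pow_eq := ?_, ord_map := hom,
            θ_int := hθint, θ_ne := hθne, T₀_ne := ?_, T₀_eq := ?_, c₁_nonneg := hc₁0,
            absorb := ?_ }, rfl⟩
  · -- fixed
    intro x hx
    have h1 : ∀ τ : M' ≃ₐ[M] M', τ x = x := by
      intro τ
      obtain ⟨n, rfl⟩ := Subgroup.mem_zpowers_iff.mp (hσ τ)
      have hmem : σ ∈ MulAction.stabilizer (M' ≃ₐ[M] M') x := hx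
      exact (Subgroup.zpow_mem _ hmem n)
    have h2 := (IsGalois.mem_bot_iff_fixed x).mpr h1
    exact IntermediateField.mem_bot.mp h2
  · -- norm
    intro x
    rw [Algebra.norm_eq_prod_automorphisms, prod_eq_prod_range hσ, hord]
  · rw [← hord, pow_orderOf_eq_one]
  · -- T₀ ≠ 0
    intro h0
    have h1 : ∑ τ : M' ≃ₐ[M] M', (1 : M) • B τ = 0 := by
      simp only [one_smul, hBapp]
      rw [← trace_eq_sum_automorphisms, h0, map_zero]
    have := Fintype.linearIndependent_iff.mp B.linearIndependent (fun _ => 1) h1 1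
    exact one_ne_zero this
  · rw [trace_eq_sum_automorphisms, sum_eq_sum_range hσ, hord]
  · -- absorb
    intro n x hx
    rw [mem_Lam_iff]
    refine ⟨fun i => B.repr x (σ ^ i), fun i => ?_, ?_⟩
    · rcases hx with rfl | hx
      · left; simp
      by_cases hx0 : x = 0
      · left; simp [hx0]
      simp only [hrepr]
      rcases le_ord_trace hfix hom (x * Bd (σ ^ i)) with h | h
      · exact Or.inl h
      · right
        rw [ord_mul w hx0 (hBdne _)] at h
        have h1 := hc₁le (σ ^ i)
        have h2 : (p : ℤ) * n ≤ p * ord v (Algebra.trace M M' (x * Bd (σ ^ i))) := by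
          have h3 : c₁ ≤ p * c₁ := by nlinarith
          nlinarith
        exact le_of_mul_le_mul_left h2 (by linarith)
    · conv_lhs => rw [← B.sum_repr x]
      rw [sum_eq_sum_range hσ, hord]
      refine Finset.sum_congr rfl fun i _ => ?_
      rw [hBapp, Algebra.smul_def]

end Fermat.Agent.PT.Arith
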