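/-
S55 G-ARITH / WILD, leaf `LamApi`: basic properties of the lattices `D.L n = π^n Λ`.
See `Wild/Defs.lean` for the notation and the plan.
-/
import Fermat.Agent.PT.Arith.Wild.Defs

set_option autoImplicit false
set_option linter.unusedSectionVars false

namespace Fermat.Agent.PT.Arith

open Fermat.Agent.CFT IsDedekindDomain NumberField

variable {M : Type*} [Field M] [NumberField M] {M' : Type*} [Field M'] [NumberField M']
  [Algebra M M']

section OrdHelpers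

variable {N : Type*} [Field N] [NumberField N]

theorem lamApi_le_ord_mul (v : Pl N) {x y : N} {a b : ℤ} (hx : x = 0 ∨ a ≤ ord v x)
    (hy : y = 0 ∨ b ≤ ord v y) : x * y = 0 ∨ a + b ≤ ord v (x * y) := by
  by_cases hx0 : x = 0
  · exact Or.inl (by rw [hx0, zero_mul])
  by_cases hy0 : y = 0
  · exact Or.inl (by rw [hy0, mul_zero])
  right
  rw [ord_mul v hx0 hy0]
  exact add_le_add (hx.resolve_left hx0) (hy.resolve_left hy0)

theorem lamApi_le_ord_mono (v : Pl N) {x : N} {a b : ℤ} (hab : b ≤ a) (hx : x = 0 ∨ a ≤ ord v x) :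
    x = 0 ∨ b ≤ ord v x :=
  hx.imp id (fun h => hab.trans h)

theorem lamApi_le_ord_sum {ι : Type*} (v : Pl N) (s : Finset ι) (f : ι → N) (n : ℤ)
    (h : ∀ i ∈ s, f i = 0 ∨ n ≤ ord v (f i)) :
    ∑ i ∈ s, f i = 0 ∨ n ≤ ord v (∑ i ∈ s, f i) := by
  classical
  induction s using Finset.induction_on with
  | empty => exact Or.inl Finset.sum_empty
  | insert a s ha ih =>
    rw [Finset.sum_insert ha]
    exact le_ord_add v (h a (Finset.mem_insert_self a s))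
      (ih fun i hi => h i (Finset.mem_insert_of_mem hi))

end OrdHelpers

namespace WildData

variable {p : ℕ} [Fact p.Prime] (D : WildData p M M')

theorem ord_σ (x : M') : ord D.w (D.σ x) = ord D.w x := by
  have h := ord_smul_smul D.σ D.w x
  rw [D.fix] at h
  exact h

theorem ord_σ_pow (i : ℕ) (x : M') : ord D.w ((D.σ ^ i) x) = ord D.w x := by
  induction i with
  | zero => simp
  | succ i ih =>
    rw [pow_succ', AlgEquiv.mul_apply, ord_σ, ih]

theorem L_anti {m n : ℤ} (h : n ≤ m) : D.L m ≤ D.L n := by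
  rintro x ⟨c, hc, rfl⟩
  exact ⟨c, fun i => lamApi_le_ord_mono D.v h (hc i), rfl⟩

/-- multiplication by `a ∈ M` with `ord_v a ≥ k` maps `L n` into `L (n + k)`. -/
theorem smul_mem_L {n k : ℤ} {a : M} (ha : a = 0 ∨ k ≤ ord D.v a) {x : M'} (hx : x ∈ D.L n) :
    algebraMap M M' a * x ∈ D.L (n + k) := by
  obtain ⟨c, hc, rfl⟩ := hx
  refine ⟨fun i => c i * a, fun i => lamApi_le_ord_mul D.v (hc i) ha, ?_⟩
  rw [Finset.mul_sum]
  refine Finset.sum_congr rfl fun i _ => ?_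
  rw [map_mul]
  ring

/-- `σ` preserves `L n` (cyclic reindexing, `σ ^ p = 1`). -/
theorem σ_mem_L {n : ℤ} {x : M'} (hx : x ∈ D.L n) : D.σ x ∈ D.L n := by
  obtain ⟨c, hc, rfl⟩ := hx
  obtain ⟨p', hp'⟩ : ∃ p' : ℕ, p = p' + 1 :=
    ⟨p - 1, (Nat.succ_pred_eq_of_pos (Fact.out : p.Prime).pos).symm⟩
  refine ⟨fun j => if j = 0 then c p' else c (j - 1), fun j => ?_, ?_⟩
  · by_cases hj : j = 0
    · simp only [hj, if_true]; exact hc p'
    · simp only [hj, if_false]; exact hc (j - 1)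
  · have hpow : D.σ ^ (p' + 1) = 1 := by rw [← hp']; exact D.pow_eq
    rw [map_sum]
    have h1 : ∀ i, D.σ (algebraMap M M' (c i) * (D.σ ^ i) D.θ) =
        algebraMap M M' (c i) * (D.σ ^ (i + 1)) D.θ := by
      intro i
      rw [map_mul, AlgEquiv.commutes, pow_succ', AlgEquiv.mul_apply]
    simp only [h1]
    have hr : Finset.range p = Finset.range (p' + 1) := by rw [hp']
    rw [hr, Finset.sum_range_succ, Finset.sum_range_succ', hpow]
    simp

theorem σ_pow_mem_L {n : ℤ} (i : ℕ) {x : M'} (hx : x ∈ D.L n) : (D.σ ^ i) x ∈ D.L n := by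
  induction i with
  | zero => simpa using hx
  | succ i ih =>
    rw [pow_succ', AlgEquiv.mul_apply]
    exact D.σ_mem_L ih

/-- elements of `L n` have `ord_w ≥ p n` (`θ` is integral at `w`, `ord_w = p ord_v` on `M`). -/
theorem ord_of_mem_L {n : ℤ} {x : M'} (hx : x ∈ D.L n) : x = 0 ∨ (p : ℤ) * n ≤ ord D.w x := by
  obtain ⟨c, hc, rfl⟩ := hx
  refine lamApi_le_ord_sum D.w _ _ _ fun i _ => ?_
  have h1 : algebraMap M M' (c i) = 0 ∨ (p : ℤ) * n ≤ ord D.w (algebraMap M M' (c i)) := by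
    rcases hc i with h | h
    · exact Or.inl (by rw [h, map_zero])
    · right
      rw [D.ord_map]
      exact mul_le_mul_of_nonneg_left h (by positivity)
  have h2 : (D.σ ^ i) D.θ = 0 ∨ (0 : ℤ) ≤ ord D.w ((D.σ ^ i) D.θ) := by
    right
    rw [ord_σ_pow]
    exact D.θ_int
  have h3 := lamApi_le_ord_mul D.w h1 h2
  rwa [add_zero] at h3

/-- `L a * L b ⊆ L (a + b - c₁)` (by `absorb`). -/
theorem mul_mem_L {a b : ℤ} {x y : M'} (hx : x ∈ D.L a) (hy : y ∈ D.L b) :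
    x * y ∈ D.L (a + b - D.c₁) := by
  apply D.absorb
  have h := lamApi_le_ord_mul D.w (D.ord_of_mem_L hx) (D.ord_of_mem_L hy)
  have e : (p : ℤ) * (a + b - D.c₁ + D.c₁) = (p : ℤ) * a + (p : ℤ) * b := by ring
  rwa [e]

theorem lamApi_ord_pos {m : ℤ} (hm : 1 ≤ m) {μ : M'} (hμ : μ ∈ D.L m) :
    μ = 0 ∨ 0 < ord D.w μ := by
  rcases D.ord_of_mem_L hμ with h | h
  · exact Or.inl h
  · right
    have hp : (0 : ℤ) < p := by exact_mod_cast (Fact.out : p.Prime).pos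
    have : (0 : ℤ) < (p : ℤ) * m := mul_pos hp (by omega)
    omega

/-- `1 + μ ≠ 0` and is a unit at `w` if `μ ∈ L m`, `m ≥ 1`. -/
theorem one_add_ne_zero {m : ℤ} (hm : 1 ≤ m) {μ : M'} (hμ : μ ∈ D.L m) : 1 + μ ≠ 0 := by
  intro h
  have hμ1 : μ = -1 := by
    have : μ = (1 + μ) - 1 := by ring
    rw [this, h]; ring
  rcases D.lamApi_ord_pos hm hμ with h0 | h0
  · rw [h0] at hμ1
    exact one_ne_zero (neg_eq_zero.mp hμ1.symm)
  · rw [hμ1, ord_neg, ord_one] at h0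
    exact lt_irrefl _ h0

theorem ord_one_add {m : ℤ} (hm : 1 ≤ m) {μ : M'} (hμ : μ ∈ D.L m) : ord D.w (1 + μ) = 0 := by
  rcases D.lamApi_ord_pos hm hμ with h0 | h0
  · rw [h0, add_zero, ord_one]
  · have hμ0 : μ ≠ 0 := by
      rintro rfl
      rw [ord_zero] at h0
      exact lt_irrefl _ h0
    rw [ord_add_eq_of_lt D.w one_ne_zero hμ0 (by rwa [ord_one]), ord_one]

/-- `r / (1 + μ) ∈ L k` for `r ∈ L k`, `μ ∈ L m`, `m ≥ c₁ + 1`:
`r / (1+μ) = r - r μ / (1+μ)` and the last term has `ord_w ≥ p k + p m ≥ p (k + c₁)`. -/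
theorem div_one_add_mem_L {k m : ℤ} (hm : D.c₁ + 1 ≤ m) {r μ : M'} (hr : r ∈ D.L k)
    (hμ : μ ∈ D.L m) : r / (1 + μ) ∈ D.L k := by
  have hm1 : 1 ≤ m := by have := D.c₁_nonneg; omega
  have hne := D.one_add_ne_zero hm1 hμ
  have e : r / (1 + μ) = r - r * μ * (1 + μ)⁻¹ := by
    field_simp
    ring
  rw [e]
  refine (D.L k).sub_mem hr (D.absorb k _ ?_)
  have h1 := lamApi_le_ord_mul D.w (D.ord_of_mem_L hr) (D.ord_of_mem_L hμ)
  have h2 : (1 + μ)⁻¹ = 0 ∨ (0 : ℤ) ≤ ord D.w (1 + μ)⁻¹ := by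
    right
    rw [ord_inv, D.ord_one_add hm1 hμ]
    simp
  have h3 := lamApi_le_ord_mul D.w h1 h2
  refine lamApi_le_ord_mono D.w ?_ h3
  have hp : (0 : ℤ) ≤ p := by positivity
  have : (p : ℤ) * D.c₁ ≤ (p : ℤ) * m := mul_le_mul_of_nonneg_left (by omega) hp
  have e2 : (p : ℤ) * (k + D.c₁) = (p : ℤ) * k + (p : ℤ) * D.c₁ := by ring
  rw [e2]
  omega

/-- `∑_j σ^j x = (∑ c_i) T₀` for `x = ∑ c_i σ^i θ`. -/
theorem sum_σ_pow_eq (c : ℕ → M) :
    ∑ j ∈ Finset.range p, (D.σ ^ j) (∑ i ∈ Finset.range p, algebraMap M M' (c i) * (D.σ ^ i) D.θ) =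
      algebraMap M M' ((∑ i ∈ Finset.range p, c i) * D.T₀) := by
  have h1 : ∀ j i, (D.σ ^ j) (algebraMap M M' (c i) * (D.σ ^ i) D.θ) =
      algebraMap M M' (c i) * (D.σ ^ i) ((D.σ ^ j) D.θ) := by
    intro j i
    rw [map_mul, AlgEquiv.commutes, ← AlgEquiv.mul_apply, ← AlgEquiv.mul_apply, ← pow_add, ← pow_add,
      add_comm]
  simp only [map_sum, h1]
  rw [Finset.sum_comm]
  rw [map_mul, map_sum, Finset.sum_mul]
  refine Finset.sum_congr rfl fun i _ => ?_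
  rw [← Finset.mul_sum, ← map_sum, ← D.T₀_eq, AlgEquiv.commutes]

/-- elementary estimate: if all `x_j` have `ord_w ≥ r ≥ 0` then
`∏ (1 + x_j) - 1 - ∑ x_j` has `ord_w ≥ 2 r` (induction on the finite set). -/
theorem ord_prod_one_add_sub {ι : Type*} (s : Finset ι) (x : ι → M') (r : ℤ) (hr : 0 ≤ r)
    (hx : ∀ j ∈ s, x j = 0 ∨ r ≤ ord D.w (x j)) :
    (∏ j ∈ s, (1 + x j) - 1 - ∑ j ∈ s, x j = 0) ∨
      2 * r ≤ ord D.w (∏ j ∈ s, (1 + x j) - 1 - ∑ j ∈ s, x j) := by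
  classical
  suffices H : ((∏ j ∈ s, (1 + x j) - 1 = 0) ∨ r ≤ ord D.w (∏ j ∈ s, (1 + x j) - 1)) ∧
      ((∏ j ∈ s, (1 + x j) - 1 - ∑ j ∈ s, x j = 0) ∨
      2 * r ≤ ord D.w (∏ j ∈ s, (1 + x j) - 1 - ∑ j ∈ s, x j)) from H.2
  induction s using Finset.induction_on with
  | empty => simp
  | insert a s ha ih =>
    obtain ⟨ihA, ihB⟩ := ih fun j hj => hx j (Finset.mem_insert_of_mem hj)
    have hxa := hx a (Finset.mem_insert_self a s)
    rw [Finset.prod_insert ha, Finset.sum_insert ha]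
    have hmul := lamApi_le_ord_mul D.w hxa ihA
    have hmul2 : x a * (∏ j ∈ s, (1 + x j) - 1) = 0 ∨
        2 * r ≤ ord D.w (x a * (∏ j ∈ s, (1 + x j) - 1)) := by
      have e : 2 * r = r + r := by ring
      rwa [e]
    constructor
    · have e : (1 + x a) * ∏ j ∈ s, (1 + x j) - 1 =
          ((∏ j ∈ s, (1 + x j) - 1) + x a) + x a * (∏ j ∈ s, (1 + x j) - 1) := by ring
      rw [e]
      exact le_ord_add D.w (le_ord_add D.w ihA hxa)
        (lamApi_le_ord_mono D.w (by omega) hmul2)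
    · have e : (1 + x a) * ∏ j ∈ s, (1 + x j) - 1 - (x a + ∑ j ∈ s, x j) =
          (∏ j ∈ s, (1 + x j) - 1 - ∑ j ∈ s, x j) + x a * (∏ j ∈ s, (1 + x j) - 1) := by ring
      rw [e]
      exact le_ord_add D.w ihB hmul2

end WildData

end Fermat.Agent.PT.Arith
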