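/-
S55 G-ARITH / WILD, leaf `VG`: the groups `VG k = 1 + π^(n₀+k) Λ`.
-/
import Fermat.Agent.PT.Arith.Wild.LamApi

set_option autoImplicit false
set_option linter.unusedSectionVars false

namespace Fermat.Agent.PT.Arith

open Fermat.Agent.CFT IsDedekindDomain NumberField

variable {M : Type*} [Field M] [NumberField M] {M' : Type*} [Field M'] [NumberField M']
  [Algebra M M']

namespace WildData

variable {p : ℕ} [Fact p.Prime] (D : WildData p M M')

/-- `VG k = { x : x - 1 ∈ L (n₀ + k) }`.  Subgroup: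
`(1+a)(1+b) - 1 = a + b + ab`, `ab ∈ L (2n - c₁) ⊆ L n`;  `(1+a)⁻¹ - 1 = - a / (1+a)`
(`div_one_add_mem_L`). -/
noncomputable def VG (k : ℕ) : Subgroup M'ˣ where
  carrier := {x | (x : M') - 1 ∈ D.L (D.n₀ + k)}
  mul_mem' := by
    intro x y hx hy
    have hx' : (x : M') - 1 ∈ D.L (D.n₀ + k) := hx
    have hy' : (y : M') - 1 ∈ D.L (D.n₀ + k) := hy
    show ((x * y : M'ˣ) : M') - 1 ∈ D.L (D.n₀ + k)
    have h1 : ((x * y : M'ˣ) : M') - 1
        = ((x : M') - 1) + ((y : M') - 1) + ((x : M') - 1) * ((y : M') - 1) := by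
      push_cast; ring
    rw [h1]
    refine add_mem (add_mem hx' hy') (D.L_anti ?_ (D.mul_mem_L hx' hy'))
    have := D.c₁_lt_n₀
    omega
  one_mem' := by
    simp
  inv_mem' := by
    intro x hx
    have hx' : (x : M') - 1 ∈ D.L (D.n₀ + k) := hx
    show ((x⁻¹ : M'ˣ) : M') - 1 ∈ D.L (D.n₀ + k)
    have h1 : ((x⁻¹ : M'ˣ) : M') - 1 = -(((x : M') - 1) / (1 + ((x : M') - 1))) := by
      have hx0 : (x : M') ≠ 0 := x.ne_zero
      rw [add_sub_cancel, Units.val_inv_eq_inv_val]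
      field_simp
      ring
    rw [h1]
    refine neg_mem (D.div_one_add_mem_L ?_ hx' hx')
    have := D.c₁_lt_n₀
    omega

theorem mem_VG_iff (k : ℕ) (x : M'ˣ) : x ∈ D.VG k ↔ (x : M') - 1 ∈ D.L (D.n₀ + k) := Iff.rfl

theorem VG_anti {k l : ℕ} (h : k ≤ l) : D.VG l ≤ D.VG k := by
  intro x hx
  rw [mem_VG_iff] at hx ⊢
  exact D.L_anti (by omega) hx

theorem coe_sU (x : M'ˣ) : ((D.sU x : M'ˣ) : M') = D.σ (x : M') := rfl

theorem coe_nU (x : M'ˣ) :
    ((D.nU x : M'ˣ) : M') = algebraMap M M' (Algebra.norm M (x : M')) := rfl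

theorem sU_mem_VG {k : ℕ} {x : M'ˣ} (hx : x ∈ D.VG k) : D.sU x ∈ D.VG k := by
  rw [mem_VG_iff] at hx ⊢
  have := D.σ_mem_L hx
  rwa [map_sub, map_one] at this

theorem coe_sU_iterate (i : ℕ) (x : M'ˣ) :
    (((D.sU)^[i] x : M'ˣ) : M') = (D.σ ^ i) (x : M') := by
  induction i with
  | zero => simp
  | succ i ih =>
    rw [Function.iterate_succ_apply', coe_sU, ih, pow_succ', AlgEquiv.mul_apply]

theorem sU_iterate_mem_VG {k : ℕ} (i : ℕ) {x : M'ˣ} (hx : x ∈ D.VG k) :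
    (D.sU)^[i] x ∈ D.VG k := by
  induction i with
  | zero => simpa using hx
  | succ i ih =>
    rw [Function.iterate_succ_apply']
    exact D.sU_mem_VG ih

theorem nU_eq_prod (x : M'ˣ) : D.nU x = ∏ i ∈ Finset.range p, (D.sU)^[i] x := by
  ext
  rw [coe_nU, D.norm_eq, Units.coe_prod]
  exact Finset.prod_congr rfl fun i _ => (D.coe_sU_iterate i x).symm

theorem nU_mem_VG {k : ℕ} {x : M'ˣ} (hx : x ∈ D.VG k) : D.nU x ∈ D.VG k := by
  rw [nU_eq_prod]
  exact Subgroup.prod_mem _ fun i _ => D.sU_iterate_mem_VG i hx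

theorem VG_le_UD (k : ℕ) : D.VG k ≤ UD D.w := by
  intro x hx
  rw [mem_VG_iff] at hx
  rw [mem_UD_iff]
  have h1 : (1 : ℤ) ≤ D.n₀ + k := by
    have := D.n₀_pos
    omega
  have := D.ord_one_add h1 hx
  rwa [add_sub_cancel] at this

/-- `VG k` is open at `w`. -/
theorem exists_PU_le_VG (k : ℕ) : ∃ N : ℕ, PU D.w N ≤ D.VG k := by
  refine ⟨((p : ℤ) * (D.n₀ + k + D.c₁)).toNat, fun x hx => ?_⟩
  rw [mem_PU_iff] at hx
  rw [mem_VG_iff]
  apply D.absorb
  rcases hx with hx | hx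
  · left; rw [hx, sub_self]
  · right
    have := Int.self_le_toNat ((p : ℤ) * (D.n₀ + k + D.c₁))
    omega

/-- hence of finite index in the units at `w` (`relIndex_PU_UD_ne_zero`). -/
theorem relIndex_VG_ne_zero (k : ℕ) : (D.VG k).relIndex (UD D.w) ≠ 0 := by
  obtain ⟨N, hN⟩ := D.exists_PU_le_VG k
  intro h0
  have h1 := Subgroup.relIndex_dvd_of_le_left (UD D.w) hN
  rw [h0, zero_dvd_iff] at h1
  exact LPIndex.relIndex_PU_UD_ne_zero D.w N h1

/-- elements of `M` close to `1` at `v` lie in `VG k`. -/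
theorem exists_map_PU_le_VG (k : ℕ) :
    ∃ N : ℕ, ∀ u ∈ PU D.v N, Units.map (algebraMap M M' : M →* M') u ∈ D.VG k := by
  refine ⟨(D.n₀ + k + D.c₁).toNat, fun u hu => ?_⟩
  rw [mem_PU_iff] at hu
  rw [mem_VG_iff]
  apply D.absorb
  have h1 : ((Units.map (algebraMap M M' : M →* M') u : M'ˣ) : M') - 1
      = algebraMap M M' ((u : M) - 1) := by
    rw [map_sub, map_one]; rfl
  rw [h1]
  rcases hu with hu | hu
  · left; rw [hu, sub_self, map_zero]
  · right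
    rw [D.ord_map]
    have h2 := Int.self_le_toNat (D.n₀ + k + D.c₁)
    have h3 : D.n₀ + k + D.c₁ ≤ ord D.v ((u : M) - 1) := by omega
    have hp0 : (0 : ℤ) ≤ p := Int.natCast_nonneg p
    exact mul_le_mul_of_nonneg_left h3 hp0

theorem sU_mem_UD {x : M'ˣ} (hx : x ∈ UD D.w) : D.sU x ∈ UD D.w := by
  rw [mem_UD_iff] at hx ⊢
  rw [coe_sU, D.ord_σ, hx]

/-- `ord_w (N x) = p ord_w x`. -/
theorem ord_nU (x : M'ˣ) : ord D.w ((D.nU x : M'ˣ) : M') = p * ord D.w (x : M') := by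
  rw [coe_nU, D.norm_eq, ord_prod]
  · simp only [D.ord_σ_pow, Finset.sum_const, Finset.card_range, nsmul_eq_mul]
  · intro i _
    exact (map_ne_zero _).mpr x.ne_zero

theorem nU_mem_UD {x : M'ˣ} (hx : x ∈ UD D.w) : D.nU x ∈ UD D.w := by
  rw [mem_UD_iff] at hx ⊢
  rw [D.ord_nU, hx, mul_zero]

theorem nU_sU (x : M'ˣ) : D.nU (D.sU x) = D.nU x := by
  ext
  rw [coe_nU, coe_nU, coe_sU, Algebra.norm_eq_of_algEquiv]

theorem nU_sU_div (x : M'ˣ) : D.nU (D.sU x / x) = 1 := by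
  rw [map_div, nU_sU, div_self']

theorem sU_nU (x : M'ˣ) : D.sU (D.nU x) = D.nU x := by
  ext
  rw [coe_sU, coe_nU, AlgEquiv.commutes]

end WildData

end Fermat.Agent.PT.Arith
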