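/-
S55 G-ARITH / WILD, leaf `Step`: one step of the successive approximation for `H¹(G, VG k) = 0`.
-/
import Fermat.Agent.PT.Arith.Wild.VG

set_option autoImplicit false
set_option linter.unusedSectionVars false

namespace Fermat.Agent.PT.Arith

open Fermat.Agent.CFT IsDedekindDomain NumberField

variable {M : Type*} [Field M] [NumberField M] {M' : Type*} [Field M'] [NumberField M']
  [Algebra M M']

private theorem step_le_ord_sum {N : Type*} [Field N] [NumberField N] {ι : Type*} (v : Pl N)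
    (s : Finset ι) (f : ι → N) (n : ℤ) (h : ∀ i ∈ s, f i = 0 ∨ n ≤ ord v (f i)) :
    (∑ i ∈ s, f i = 0) ∨ n ≤ ord v (∑ i ∈ s, f i) := by
  classical
  induction s using Finset.induction_on with
  | empty => exact Or.inl (by simp)
  | insert a s ha ih =>
    rw [Finset.sum_insert ha]
    exact le_ord_add v (h a (Finset.mem_insert_self a s))
      (ih fun i hi => h i (Finset.mem_insert_of_mem hi))

/-- summation by parts. -/
private theorem step_abel {R : Type*} [CommRing R] (C a : ℕ → R) (n : ℕ) :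
    ∑ i ∈ Finset.range n, (-∑ j ∈ Finset.range (i + 1), C j) * (a (i + 1) - a i) =
      ∑ i ∈ Finset.range n, C i * a i - (∑ j ∈ Finset.range n, C j) * a n := by
  induction n with
  | zero => simp
  | succ n ih =>
    rw [Finset.sum_range_succ, ih, Finset.sum_range_succ (fun i => C i * a i),
      Finset.sum_range_succ C n]
    ring

namespace WildData

variable {p : ℕ} [Fact p.Prime] (D : WildData p M M')

/-- Put `m = n₀ + k`, `z = 1 + x`, `x = ∑ c_i σ^i θ`, `ord_v c_i ≥ m`, `s = ∑ c_i`.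
`1 = N z = ∏_j (1 + σ^j x)`, so by `ord_prod_one_add_sub` `∑_j σ^j x = s T₀` has `ord_w ≥ 2 p m`, i.e.
`ord_v s ≥ 2 m - ord_v T₀ ≥ m + 1`. -/
theorem ord_sum_coeff (k : ℕ) (c : ℕ → M) (hc : ∀ i, c i = 0 ∨ D.n₀ + k ≤ ord D.v (c i))
    (hN : ∏ j ∈ Finset.range p,
      (D.σ ^ j) (1 + ∑ i ∈ Finset.range p, algebraMap M M' (c i) * (D.σ ^ i) D.θ) = 1) :
    (∑ i ∈ Finset.range p, c i = 0) ∨ D.n₀ + k + 1 ≤ ord D.v (∑ i ∈ Finset.range p, c i) := by
  have hp : (0 : ℤ) < p := by exact_mod_cast (Fact.out : p.Prime).pos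
  set m : ℤ := D.n₀ + k with hm
  have hm0 : D.n₀ ≤ m := by rw [hm]; omega
  have hmpos : 0 < m := lt_of_lt_of_le D.n₀_pos hm0
  set x : M' := ∑ i ∈ Finset.range p, algebraMap M M' (c i) * (D.σ ^ i) D.θ with hx
  set s : M := ∑ i ∈ Finset.range p, c i with hs
  have hxL : x ∈ D.L m := ⟨c, hc, rfl⟩
  have h1 := D.ord_prod_one_add_sub (Finset.range p) (fun j => (D.σ ^ j) x) ((p : ℤ) * m)
    (by positivity) (fun j _ => D.ord_of_mem_L (D.σ_pow_mem_L j hxL))
  have h2 : ∏ j ∈ Finset.range p, (1 + (D.σ ^ j) x) = 1 := by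
    refine Eq.trans (Finset.prod_congr rfl fun j _ => ?_) hN
    rw [map_add, map_one]
  have h3 : ∑ j ∈ Finset.range p, (D.σ ^ j) x = algebraMap M M' (s * D.T₀) := D.sum_σ_pow_eq c
  rw [h2, h3, sub_self, zero_sub, neg_eq_zero, ord_neg] at h1
  by_cases hs0 : s = 0
  · exact Or.inl hs0
  · right
    have hne : s * D.T₀ ≠ 0 := mul_ne_zero hs0 D.T₀_ne
    rcases h1 with h1 | h1
    · exact absurd ((map_eq_zero _).mp h1) hne
    · rw [D.ord_map, ord_mul _ hs0 D.T₀_ne] at h1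
      have h4 : 2 * m ≤ ord D.v s + ord D.v D.T₀ := by
        have : (p : ℤ) * (2 * m) ≤ p * (ord D.v s + ord D.v D.T₀) := by linarith
        exact le_of_mul_le_mul_left this hp
      have h5 := D.ordT₀_lt_n₀
      omega

/-- With `d_i = - ∑_{j ≤ i} c_j` and `μ = ∑ d_i σ^i θ`:  `σ μ - μ = x - s θ`. -/
theorem exists_primitive (n : ℤ) (c : ℕ → M) (hc : ∀ i, c i = 0 ∨ n ≤ ord D.v (c i)) :
    ∃ μ ∈ D.L n, D.σ μ - μ = (∑ i ∈ Finset.range p, algebraMap M M' (c i) * (D.σ ^ i) D.θ)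
      - algebraMap M M' (∑ i ∈ Finset.range p, c i) * D.θ := by
  refine ⟨∑ i ∈ Finset.range p,
    algebraMap M M' (-∑ j ∈ Finset.range (i + 1), c j) * (D.σ ^ i) D.θ,
    ⟨fun i => -∑ j ∈ Finset.range (i + 1), c j, fun i => ?_, rfl⟩, ?_⟩
  · rcases step_le_ord_sum D.v (Finset.range (i + 1)) c n (fun j _ => hc j) with h | h
    · exact Or.inl (by show -∑ j ∈ Finset.range (i + 1), c j = 0; rw [h, neg_zero])
    · exact Or.inr (by show n ≤ ord D.v (-∑ j ∈ Finset.range (i + 1), c j); rw [ord_neg]; exact h)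
  · have h := step_abel (fun i => algebraMap M M' (c i)) (fun i => (D.σ ^ i) D.θ) p
    have hp : (D.σ ^ p) D.θ = D.θ := by rw [D.pow_eq]; rfl
    simp only [hp] at h
    rw [map_sum (algebraMap M M'), ← h, map_sum D.σ, ← Finset.sum_sub_distrib]
    refine Finset.sum_congr rfl fun i _ => ?_
    rw [map_mul, AlgEquiv.commutes, map_neg, map_sum, pow_succ']
    simp only [AlgEquiv.mul_apply]
    ring

theorem step_θ_mem_L : D.θ ∈ D.L 0 := by
  have hp : 0 < p := (Fact.out : p.Prime).pos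
  refine ⟨fun i => if i = 0 then 1 else 0, fun i => ?_, ?_⟩
  · by_cases h : i = 0
    · right; simp [h]
    · left; simp [h]
  · rw [Finset.sum_eq_single 0]
    · simp
    · intro i _ hi
      simp [hi]
    · intro h
      exact absurd (Finset.mem_range.mpr hp) h

/-- **Step.**  `y = 1 + μ`:  `z y / σ y = 1 + (s θ + x μ) / (1 + σ μ)`, `s θ ∈ L (m+1)`,
`x μ ∈ L (2m - c₁) ⊆ L (m+1)`, then `div_one_add_mem_L`. -/
theorem step (k : ℕ) (z : M'ˣ) (hz : z ∈ D.VG k) (hN : D.nU z = 1) :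
    ∃ y ∈ D.VG k, z * y / D.sU y ∈ D.VG (k + 1) := by
  set m : ℤ := D.n₀ + k with hm
  have hm0 : D.n₀ ≤ m := by rw [hm]; omega
  have hc1 : D.c₁ + 1 ≤ m := by have := D.c₁_lt_n₀; omega
  have hm1 : 1 ≤ m := by have := D.n₀_pos; omega
  obtain ⟨c, hc, hzc⟩ := (D.mem_VG_iff k z).mp hz
  set x : M' := ∑ i ∈ Finset.range p, algebraMap M M' (c i) * (D.σ ^ i) D.θ with hx
  have hzx : (z : M') = 1 + x := by rw [← hzc]; ring
  have hxL : x ∈ D.L m := ⟨c, hc, rfl⟩
  have hN' : ∏ j ∈ Finset.range p, (D.σ ^ j) (1 + x) = 1 := by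
    rw [← hzx, ← D.norm_eq]
    have := congrArg (fun u : M'ˣ => (u : M')) hN
    simpa [nU] using this
  have hs := D.ord_sum_coeff k c hc hN'
  obtain ⟨μ, hμ, hμσ⟩ := D.exists_primitive m c hc
  set s : M := ∑ i ∈ Finset.range p, c i with hsdef
  have hy0 : 1 + μ ≠ 0 := D.one_add_ne_zero hm1 hμ
  have hσμ : D.σ μ ∈ D.L m := D.σ_mem_L hμ
  have hy1 : 1 + D.σ μ ≠ 0 := D.one_add_ne_zero hm1 hσμ
  refine ⟨Units.mk0 (1 + μ) hy0, ?_, ?_⟩
  · rw [mem_VG_iff]
    simpa using hμ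
  · rw [mem_VG_iff]
    have hcast : D.n₀ + ((k + 1 : ℕ) : ℤ) = m + 1 := by rw [hm]; push_cast; ring
    rw [hcast]
    have hr1 : algebraMap M M' s * D.θ ∈ D.L (m + 1) := by
      have := D.smul_mem_L (n := 0) (k := m + 1) hs D.step_θ_mem_L
      rwa [zero_add] at this
    have hr2 : x * μ ∈ D.L (m + 1) :=
      D.L_anti (by omega) (D.mul_mem_L hxL hμ)
    have hr : algebraMap M M' s * D.θ + x * μ ∈ D.L (m + 1) := (D.L (m + 1)).add_mem hr1 hr2
    have hfin := D.div_one_add_mem_L hc1 hr hσμ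
    have hval : ((z * Units.mk0 (1 + μ) hy0 / D.sU (Units.mk0 (1 + μ) hy0) : M'ˣ) : M') - 1 =
        (algebraMap M M' s * D.θ + x * μ) / (1 + D.σ μ) := by
      have h1 : ((D.sU (Units.mk0 (1 + μ) hy0) : M'ˣ) : M') = 1 + D.σ μ := by
        simp [sU]
      rw [Units.val_div_eq_div_val, Units.val_mul, h1, Units.val_mk0, hzx]
      have h2 : algebraMap M M' s * D.θ = x - (D.σ μ - μ) := by rw [hμσ]; ring
      rw [h2]
      field_simp
      ring
    rw [hval]
    exact hfin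

end WildData

end Fermat.Agent.PT.Arith
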