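/-
S55 G-ARITH / WILD, leaf `H1`: `H¹(G, VG k) = 0` (resolvent + induction).
-/
import Fermat.Agent.PT.Arith.Wild.Step

set_option autoImplicit false
set_option linter.unusedSectionVars false

namespace Fermat.Agent.PT.Arith

open Fermat.Agent.CFT IsDedekindDomain NumberField

variable {M : Type*} [Field M] [NumberField M] {M' : Type*} [Field M'] [NumberField M']
  [Algebra M M']

namespace WildData

variable {p : ℕ} [Fact p.Prime] (D : WildData p M M')

/-- the partial products `P_i = ∏_{j<i} σ^j z`, defined recursively. -/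
private noncomputable def partProd (z : M'ˣ) : ℕ → M'ˣ
  | 0 => 1
  | (i + 1) => z * D.sU (partProd z i)

private theorem partProd_mem {k : ℕ} {z : M'ˣ} (hz : z ∈ D.VG k) (i : ℕ) :
    D.partProd z i ∈ D.VG k := by
  induction i with
  | zero => exact (D.VG k).one_mem
  | succ i ih => exact (D.VG k).mul_mem hz (D.sU_mem_VG ih)

private theorem partProd_coe (z : M'ˣ) (i : ℕ) :
    ((D.partProd z i : M'ˣ) : M') = ∏ j ∈ Finset.range i, (D.σ ^ j) (z : M') := by
  induction i with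
  | zero => simp [partProd]
  | succ i ih =>
    rw [partProd, Units.val_mul, coe_sU, ih, map_prod, Finset.prod_range_succ', mul_comm]
    congr 1
    refine Finset.prod_congr rfl fun j _ => ?_
    rw [pow_succ', AlgEquiv.mul_apply]

private theorem partProd_p {z : M'ˣ} (hN : D.nU z = 1) : D.partProd z p = 1 := by
  ext
  rw [partProd_coe, ← D.norm_eq, ← D.coe_nU, hN]

private theorem nU_div_sU (y : M'ˣ) : D.nU (y / D.sU y) = 1 := by
  have h := D.nU_sU_div y
  have : y / D.sU y = (D.sU y / y)⁻¹ := by rw [inv_div]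
  rw [this, map_inv, h, inv_one]

/-- **Resolvent** (explicit Hilbert 90).  `K = ord_v p`.  For `z ∈ VG (k+K)`, `N z = 1` put
`P_i = ∏_{j<i} σ^j z ∈ VG (k+K)`, `y = (1/p) ∑_{i<p} P_i`.  Then `y - 1 = (1/p) ∑ (P_i - 1) ∈ L (n₀+k)`
(`smul_mem_L` with `a = 1/p`), `z σ(y) = y` (shift of the index, `P_p = N z = 1`); answer `y⁻¹`. -/
theorem resolvent (k : ℕ) (z : M'ˣ) (hz : z ∈ D.VG (k + (ord D.v (p : M)).toNat))
    (hN : D.nU z = 1) : ∃ y ∈ D.VG k, D.sU y / y = z := by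
  have hp0 : (p : M) ≠ 0 := by
    exact_mod_cast (Fact.out : p.Prime).ne_zero
  have hp0' : (p : M') ≠ 0 := by
    exact_mod_cast (Fact.out : p.Prime).ne_zero
  have hordp : 0 ≤ ord D.v (p : M) := by
    have := ord_nonneg_of_integer D.v (p : 𝓞 M)
    simpa using this
  set K : ℕ := (ord D.v (p : M)).toNat with hK
  have hKeq : (K : ℤ) = ord D.v (p : M) := Int.toNat_of_nonneg hordp
  -- the sum of the `P_i - 1`
  set S : M' := ∑ i ∈ Finset.range p, (((D.partProd z i : M'ˣ) : M') - 1) with hS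
  have hSmem : S ∈ D.L (D.n₀ + ((k + K : ℕ) : ℤ)) := by
    refine AddSubgroup.sum_mem _ fun i _ => ?_
    exact (D.mem_VG_iff _ _).1 (D.partProd_mem hz i)
  set μ : M' := algebraMap M M' ((p : M)⁻¹) * S with hμ
  have hμmem : μ ∈ D.L (D.n₀ + k) := by
    have h := D.smul_mem_L (n := D.n₀ + ((k + K : ℕ) : ℤ)) (k := - (K : ℤ)) (a := (p : M)⁻¹)
      (Or.inr (by rw [ord_inv, hKeq])) hSmem
    have e : D.n₀ + ((k + K : ℕ) : ℤ) + - (K : ℤ) = D.n₀ + k := by push_cast; ring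
    rwa [e] at h
  have hm1 : (1 : ℤ) ≤ D.n₀ + k := by
    have := D.n₀_pos
    omega
  have hy0 : 1 + μ ≠ 0 := D.one_add_ne_zero hm1 hμmem
  set y : M'ˣ := Units.mk0 (1 + μ) hy0 with hy
  have hyV : y ∈ D.VG k := by
    rw [mem_VG_iff]
    simpa [hy] using hμmem
  -- `1 + μ = (1/p) ∑ P_i`
  have hyS : (1 + μ) = (p : M')⁻¹ * ∑ i ∈ Finset.range p, ((D.partProd z i : M'ˣ) : M') := by
    rw [hμ, hS, Finset.sum_sub_distrib]
    simp only [Finset.sum_const, Finset.card_range, nsmul_eq_mul, mul_one, map_inv₀, map_natCast]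
    field_simp
    ring
  have hshift : (z : M') * D.σ (1 + μ) = 1 + μ := by
    rw [hyS, map_mul, map_inv₀, map_natCast, map_sum, mul_left_comm, Finset.mul_sum]
    congr 1
    have h1 : ∀ i ∈ Finset.range p, (z : M') * D.σ ((D.partProd z i : M'ˣ) : M') =
        ((D.partProd z (i + 1) : M'ˣ) : M') := by
      intro i _
      rw [partProd, Units.val_mul, coe_sU]
    rw [Finset.sum_congr rfl h1]
    have h2 := Finset.sum_range_succ (fun i => ((D.partProd z i : M'ˣ) : M')) p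
    have h3 := Finset.sum_range_succ' (fun i => ((D.partProd z i : M'ˣ) : M')) p
    rw [h2] at h3
    rw [D.partProd_p hN] at h3
    have h4 : ((D.partProd z 0 : M'ˣ) : M') = 1 := by simp [partProd]
    rw [h4] at h3
    simpa using h3.symm
  have hzy : z * D.sU y = y := by
    ext
    rw [Units.val_mul, coe_sU]
    simpa [hy] using hshift
  refine ⟨y⁻¹, (D.VG k).inv_mem hyV, ?_⟩
  rw [map_inv, div_inv_eq_mul]
  nth_rewrite 2 [← hzy]
  rw [mul_comm, mul_assoc, mul_inv_cancel, mul_one]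

/-- iterate `step`. -/
theorem step_iterate (k j : ℕ) (z : M'ˣ) (hz : z ∈ D.VG k) (hN : D.nU z = 1) :
    ∃ y ∈ D.VG k, z * y / D.sU y ∈ D.VG (k + j) := by
  induction j with
  | zero =>
    exact ⟨1, (D.VG k).one_mem, by simpa using hz⟩
  | succ j ih =>
    obtain ⟨y, hy, hzy⟩ := ih
    have hN' : D.nU (z * y / D.sU y) = 1 := by
      rw [mul_div_assoc, map_mul, hN, one_mul, nU_div_sU]
    obtain ⟨y', hy', hzy'⟩ := D.step (k + j) _ hzy hN'
    refine ⟨y * y', (D.VG k).mul_mem hy (D.VG_anti (Nat.le_add_right k j) hy'), ?_⟩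
    have e : z * (y * y') / D.sU (y * y') = z * y / D.sU y * y' / D.sU y' := by
      rw [map_mul]
      simp only [div_eq_mul_inv, mul_inv]
      ac_rfl
    rw [e]
    exact hzy'

/-- **`H¹(G, VG k) = 0`.** -/
theorem H1_vanish (k : ℕ) (z : M'ˣ) (hz : z ∈ D.VG k) (hN : D.nU z = 1) :
    ∃ y ∈ D.VG k, D.sU y / y = z := by
  obtain ⟨y₁, hy₁, h₁⟩ := D.step_iterate k (ord D.v (p : M)).toNat z hz hN
  have hN' : D.nU (z * y₁ / D.sU y₁) = 1 := by
    rw [mul_div_assoc, map_mul, hN, one_mul, nU_div_sU]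
  obtain ⟨y₂, hy₂, h₂⟩ := D.resolvent k _ h₁ hN'
  refine ⟨y₂ * y₁, (D.VG k).mul_mem hy₂ hy₁, ?_⟩
  rw [map_mul]
  have : D.sU y₂ * D.sU y₁ / (y₂ * y₁) = (D.sU y₂ / y₂) * (D.sU y₁ / y₁) := by
    simp only [div_eq_mul_inv, mul_inv]
    ac_rfl
  rw [this, h₂]
  simp only [div_eq_mul_inv]
  have : z * y₁ * (D.sU y₁)⁻¹ * (D.sU y₁ * y₁⁻¹) = z * (y₁ * y₁⁻¹) * ((D.sU y₁)⁻¹ * D.sU y₁) := by
    ac_rfl
  rw [this, mul_inv_cancel, inv_mul_cancel, mul_one, mul_one]

end WildData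

end Fermat.Agent.PT.Arith
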