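/-
S55 G-ARITH / WILD, leaf `Herbrand`: the Herbrand quotient of a finite module is 1 (subgroup form).
Pure group theory.
-/
import Mathlib

set_option autoImplicit false

namespace Fermat.Agent.PT.Arith

/-- finite abelian group `Q`, endomorphisms `D N` with `N ∘ D = 1`, `D ∘ N = 1`.
`|ker D| |im D| = |Q| = |ker N| |im N|`; so `im D ≠ ker N` implies `im N ≠ ker D`. -/
theorem herbrand_finite_aux {Q : Type*} [CommGroup Q] [Finite Q] (D N : Q →* Q)
    (hND : ∀ x, N (D x) = 1) (hDN : ∀ x, D (N x) = 1) (η : Q) (hη : N η = 1)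
    (hη' : ∀ u, η ≠ D u) : ∃ a, D a = 1 ∧ ∀ u, a ≠ N u := by
  by_contra hcon
  push Not at hcon
  have h1 : Nat.card D.ker * Nat.card D.range = Nat.card Q := by
    rw [← Subgroup.index_ker, Subgroup.card_mul_index]
  have h2 : Nat.card N.ker * Nat.card N.range = Nat.card Q := by
    rw [← Subgroup.index_ker, Subgroup.card_mul_index]
  have h3 : D.ker = N.range := by
    apply le_antisymm
    · intro a ha
      obtain ⟨u, hu⟩ := hcon a ha
      exact ⟨u, hu.symm⟩
    · rintro _ ⟨u, rfl⟩
      exact hDN u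
  have h4 : D.range < N.ker := by
    refine lt_of_le_of_ne ?_ ?_
    · rintro _ ⟨u, rfl⟩
      exact hND u
    · intro h
      have : η ∈ D.range := by rw [h]; exact hη
      obtain ⟨u, hu⟩ := this
      exact hη' u hu.symm
  have h5 : Nat.card D.range < Nat.card N.ker := by
    have := Set.ncard_lt_ncard (s := (D.range : Set Q)) (t := (N.ker : Set Q))
      (by exact_mod_cast h4) (Set.toFinite _)
    rw [← Nat.card_coe_set_eq, ← Nat.card_coe_set_eq] at this
    exact this
  have h6 : 0 < Nat.card N.range := Nat.card_pos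
  rw [h3] at h1
  have : Nat.card N.range * Nat.card D.range < Nat.card N.range * Nat.card N.ker :=
    Nat.mul_lt_mul_of_pos_left h5 h6
  rw [h1, mul_comm, h2] at this
  exact lt_irrefl _ this

/-- subgroup form: apply the previous lemma to `Q = U / V`. -/
theorem herbrand_finite {X : Type*} [CommGroup X] (U V : Subgroup X) (hVU : V ≤ U)
    (hfin : V.relIndex U ≠ 0) (D N : X →* X)
    (hDU : ∀ x ∈ U, D x ∈ U) (hNU : ∀ x ∈ U, N x ∈ U)
    (hDV : ∀ x ∈ V, D x ∈ V) (hNV : ∀ x ∈ V, N x ∈ V)
    (hND : ∀ x ∈ U, N (D x) ∈ V) (hDN : ∀ x ∈ U, D (N x) ∈ V)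
    (η : X) (hηU : η ∈ U) (hη : N η ∈ V) (hη' : ∀ u ∈ U, ∀ z ∈ V, η ≠ D u * z) :
    ∃ a ∈ U, D a ∈ V ∧ ∀ u ∈ U, ∀ z ∈ V, a ≠ N u * z := by
  classical
  let W : Subgroup U := V.subgroupOf U
  have : Finite (U ⧸ W) := by
    have h0 : W.index ≠ 0 := hfin
    have : W.FiniteIndex := ⟨h0⟩
    exact Subgroup.finite_quotient_of_finiteIndex
  let DU : U →* U := (D.comp U.subtype).codRestrict U (fun x => hDU x x.2)
  let NU : U →* U := (N.comp U.subtype).codRestrict U (fun x => hNU x x.2)
  have hDW : W ≤ W.comap DU := by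
    intro x hx
    exact hDV x hx
  have hNW : W ≤ W.comap NU := by
    intro x hx
    exact hNV x hx
  let DQ : U ⧸ W →* U ⧸ W := QuotientGroup.map W W DU hDW
  let NQ : U ⧸ W →* U ⧸ W := QuotientGroup.map W W NU hNW
  have hmk : ∀ x : U, (QuotientGroup.mk x : U ⧸ W) = 1 ↔ (x : X) ∈ V := by
    intro x
    rw [QuotientGroup.eq_one_iff]
    exact Subgroup.mem_subgroupOf
  have key := herbrand_finite_aux DQ NQ
    (by
      intro x
      induction x using QuotientGroup.induction_on with
      | H x =>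
        show (QuotientGroup.mk (NU (DU x)) : U ⧸ W) = 1
        rw [hmk]
        exact hND x x.2)
    (by
      intro x
      induction x using QuotientGroup.induction_on with
      | H x =>
        show (QuotientGroup.mk (DU (NU x)) : U ⧸ W) = 1
        rw [hmk]
        exact hDN x x.2)
    (QuotientGroup.mk (⟨η, hηU⟩ : U))
    (by
      show (QuotientGroup.mk (NU ⟨η, hηU⟩) : U ⧸ W) = 1
      rw [hmk]
      exact hη)
    (by
      intro u
      induction u using QuotientGroup.induction_on with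
      | H u =>
        intro h
        have h' : (QuotientGroup.mk (⟨η, hηU⟩ : U) : U ⧸ W) = QuotientGroup.mk (DU u) := h
        rw [QuotientGroup.eq] at h'
        have h'' : (η⁻¹ * D u : X) ∈ V := h'
        refine hη' u u.2 ((η⁻¹ * D u)⁻¹) (V.inv_mem h'') ?_
        simp [mul_comm])
  obtain ⟨a, ha1, ha2⟩ := key
  induction a using QuotientGroup.induction_on with
  | H a =>
    refine ⟨a, a.2, ?_, ?_⟩
    · have : (QuotientGroup.mk (DU a) : U ⧸ W) = 1 := ha1
      rw [hmk] at this
      exact this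
    · intro u hu z hz h
      apply ha2 (QuotientGroup.mk (⟨u, hu⟩ : U))
      show (QuotientGroup.mk a : U ⧸ W) = QuotientGroup.mk (NU ⟨u, hu⟩)
      rw [QuotientGroup.eq]
      show ((a : X)⁻¹ * N u) ∈ V
      rw [h]
      have : (N u * z)⁻¹ * N u = z⁻¹ := by
        rw [mul_inv, mul_comm (N u)⁻¹, mul_assoc, inv_mul_cancel, mul_one]
      rw [this]
      exact V.inv_mem hz

end Fermat.Agent.PT.Arith
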