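/-
S55 G-ARITH / WILD, leaf `Main`: existence of a local non-norm from `WildData`.
-/
import Fermat.Agent.PT.Arith.Wild.H1
import Fermat.Agent.PT.Arith.Wild.Herbrand
import Fermat.Agent.PT.Arith.Hensel

set_option autoImplicit false
set_option linter.unusedSectionVars false

namespace Fermat.Agent.PT.Arith

open Fermat.Agent.CFT IsDedekindDomain NumberField

variable {M : Type*} [Field M] [NumberField M] {M' : Type*} [Field M'] [NumberField M']
  [Algebra M M']

namespace WildData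

variable {p : ℕ} [Fact p.Prime] (D : WildData p M M')

/-- a unit fixed by `σ` comes from `M`. -/
theorem exists_of_sU_eq (t : M'ˣ) (ht : D.sU t = t) :
    ∃ b : Mˣ, Units.map (algebraMap M M' : M →* M') b = t := by
  have h1 : D.σ (t : M') = t := by rw [← coe_sU, ht]
  obtain ⟨a, ha⟩ := D.fixed _ h1
  have ha0 : a ≠ 0 := by
    rintro rfl
    rw [map_zero] at ha
    exact t.ne_zero ha.symm
  refine ⟨Units.mk0 a ha0, ?_⟩
  ext
  exact ha

theorem ord_units_mul (x y : M'ˣ) :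
    ord D.w ((x * y : M'ˣ) : M') = ord D.w (x : M') + ord D.w (y : M') := by
  rw [Units.val_mul, ord_mul _ x.ne_zero y.ne_zero]

theorem ord_units_div (x y : M'ˣ) :
    ord D.w ((x / y : M'ˣ) : M') = ord D.w (x : M') - ord D.w (y : M') := by
  rw [Units.val_div_eq_div_val, ord_div _ x.ne_zero y.ne_zero]

/-- `η = σ Π / Π` is not of the form `(σ u / u) z`, `u` a unit at `w`, `z ∈ VG 0`:
otherwise `N z = 1`, `z = σ y / y` (H1), `Π / (u y)` is fixed by `σ`, hence in `M`, but has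
`ord_w = 1`, not divisible by `p`. -/
theorem eta_not_mem (ϖ : M'ˣ) (hϖ : ord D.w (ϖ : M') = 1) :
    ∀ u ∈ UD D.w, ∀ z ∈ D.VG 0, D.sU ϖ / ϖ ≠ (D.sU u / u) * z := by
  intro u hu z hz h
  have hNz : D.nU z = 1 := by
    have := congrArg D.nU h
    rw [map_mul, nU_sU_div, nU_sU_div, one_mul] at this
    exact this.symm
  obtain ⟨y, hy, hyz⟩ := D.H1_vanish 0 z hz hNz
  have hfix : D.sU (ϖ / (u * y)) = ϖ / (u * y) := by
    rw [map_div, map_mul]
    rw [← hyz] at h
    have h2 : D.sU ϖ = ϖ * ((D.sU u / u) * (D.sU y / y)) := by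
      rw [← h]
      exact (mul_div_cancel _ _).symm
    rw [h2]
    rw [div_eq_div_iff_mul_eq_mul]
    have e1 : D.sU u / u * u = D.sU u := div_mul_cancel _ _
    have e2 : D.sU y / y * y = D.sU y := div_mul_cancel _ _
    calc ϖ * (D.sU u / u * (D.sU y / y)) * (u * y)
        = ϖ * ((D.sU u / u * u) * (D.sU y / y * y)) := by
          simp only [mul_assoc, mul_comm, mul_left_comm]
      _ = ϖ * (D.sU u * D.sU y) := by rw [e1, e2]
  obtain ⟨b, hb⟩ := D.exists_of_sU_eq _ hfix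
  have hord : ord D.w ((ϖ / (u * y) : M'ˣ) : M') = 1 := by
    rw [ord_units_div, ord_units_mul, hϖ, (mem_UD_iff _ _).1 hu,
      (mem_UD_iff _ _).1 (D.VG_le_UD 0 hy)]
    norm_num
  rw [← hb] at hord
  have h3 : ord D.w (algebraMap M M' (b : M)) = 1 := hord
  rw [D.ord_map] at h3
  have hp : (2 : ℤ) ≤ p := by exact_mod_cast (Fact.out : p.Prime).two_le
  have h4 : (p : ℤ) ∣ 1 := ⟨_, h3.symm⟩
  have h5 := Int.le_of_dvd one_pos h4
  omega

/-- `herbrand_finite` with `U = UD w`, `V = VG 0`, `D x = σ x / x`, `N = nU`. -/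
theorem exists_invariant_not_norm :
    ∃ a ∈ UD D.w, D.sU a / a ∈ D.VG 0 ∧ ∀ u ∈ UD D.w, ∀ z ∈ D.VG 0, a ≠ D.nU u * z := by
  obtain ⟨π, hπ⟩ := exists_uniformizer D.w
  have hπ0 : (π : M') ≠ 0 := by
    intro h0
    rw [h0] at hπ
    simp [ord] at hπ
  set ϖ : M'ˣ := Units.mk0 (π : M') hπ0 with hϖdef
  have hϖ : ord D.w (ϖ : M') = 1 := hπ
  have key := herbrand_finite (UD D.w) (D.VG 0) (D.VG_le_UD 0) (D.relIndex_VG_ne_zero 0)
    (D.sU / MonoidHom.id _) D.nU
    (fun x hx => by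
      rw [MonoidHom.div_apply, MonoidHom.id_apply]
      exact div_mem (D.sU_mem_UD hx) hx)
    (fun x hx => D.nU_mem_UD hx)
    (fun x hx => by
      rw [MonoidHom.div_apply, MonoidHom.id_apply]
      exact div_mem (D.sU_mem_VG hx) hx)
    (fun x hx => D.nU_mem_VG hx)
    (fun x _ => by
      rw [MonoidHom.div_apply, MonoidHom.id_apply, nU_sU_div]
      exact one_mem _)
    (fun x _ => by
      rw [MonoidHom.div_apply, MonoidHom.id_apply, sU_nU, div_self']
      exact one_mem _)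
    (D.sU ϖ / ϖ)
    (by
      rw [mem_UD_iff, ord_units_div, coe_sU, D.ord_σ, sub_self])
    (by
      rw [nU_sU_div]
      exact one_mem _)
    (fun u hu z hz => by
      rw [MonoidHom.div_apply, MonoidHom.id_apply]
      exact D.eta_not_mem ϖ hϖ u hu z hz)
  obtain ⟨a, haU, haV, ha⟩ := key
  rw [MonoidHom.div_apply, MonoidHom.id_apply] at haV
  exact ⟨a, haU, haV, ha⟩

/-- **Main.**  `a` as above; `σ a / a = σ y / y`, `y ∈ VG 0` (H1), so `a / y = u ∈ Mˣ`.  If `u ∈ NL v` then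
(`mem_NL_iff_PU` with a large level, `exists_map_PU_le_VG`) `u = N(z) u₁`, `u₁ ∈ VG 0`, `z` a unit at
`w` (`ord_nU`), so `a = N(z) (u₁ y)`: contradiction. -/
theorem exists_not_mem_NL (ζ : M) (hζ : IsPrimitiveRoot ζ p) (hdeg : Module.finrank M M' = p) :
    ∃ u : Mˣ, u ∉ NL M M' p ζ D.v := by
  obtain ⟨a, haU, haV, ha⟩ := D.exists_invariant_not_norm
  obtain ⟨y, hy, hya⟩ := D.H1_vanish 0 _ haV (D.nU_sU_div a)
  have hfix : D.sU (a / y) = a / y := by
    rw [map_div, div_eq_div_iff_mul_eq_mul]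
    have h1 : D.sU y = D.sU a / a * y := by
      rw [← hya, div_mul_cancel]
    rw [h1]
    have e1 : D.sU a / a * a = D.sU a := div_mul_cancel _ _
    calc D.sU a * y = (D.sU a / a * a) * y := by rw [e1]
      _ = a * (D.sU a / a * y) := by simp only [mul_comm, mul_left_comm]
  obtain ⟨u, hu⟩ := D.exists_of_sU_eq _ hfix
  refine ⟨u, fun hmem => ?_⟩
  obtain ⟨N₁, hN₁⟩ := D.exists_map_PU_le_VG 0
  set m := max N₁ (p * (ord D.v (1 - ζ)).toNat) with hm
  obtain ⟨z, u₁, hu₁, huz⟩ := (mem_NL_iff_PU p ζ hζ hdeg D.v m (le_max_right _ _) u).1 hmem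
  have hu₁V : Units.map (algebraMap M M' : M →* M') u₁ ∈ D.VG 0 :=
    hN₁ u₁ (PU_anti D.v (le_max_left _ _) hu₁)
  have haeq : a = D.nU z * (Units.map (algebraMap M M' : M →* M') u₁ * y) := by
    have h1 : a = Units.map (algebraMap M M' : M →* M') u * y := by
      rw [hu, div_mul_cancel]
    rw [h1, huz, map_mul, mul_assoc]
    rfl
  have hV : Units.map (algebraMap M M' : M →* M') u₁ * y ∈ D.VG 0 := mul_mem hu₁V hy
  have hzU : z ∈ UD D.w := by
    rw [mem_UD_iff]
    have h1 := (mem_UD_iff _ _).1 haU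
    rw [haeq, ord_units_mul, D.ord_nU, (mem_UD_iff _ _).1 (D.VG_le_UD 0 hV), add_zero] at h1
    have hp : (p : ℤ) ≠ 0 := by exact_mod_cast (Fact.out : p.Prime).ne_zero
    exact (mul_eq_zero.1 h1).resolve_left hp
  exact ha z hzU _ hV haeq

end WildData

end Fermat.Agent.PT.Arith
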